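/-
S56, WALL W4, CASE C, BLOCK S, sub-leaf ORD-C (helper85): the tame character of `ϖ = Z w₀`.

In a connected `I`-order on a module with `N + 1` elements, let `Z` be a function of the order with
`Z 0 = 0` and `v(Z a) = 1/N` for `a ≠ 0`, and `ϖ = Z w₀`.
* LB : `(Y a - Y 0)/ϖ ∈ P` for all `Y` of the order (`ValOrbitProp`).
* ADD: `(Z (a + a') - Z a - Z a')/ϖ ∈ 𝔪` (comultiplication).
* a relation `τ² w₀ + n w₀ = t τ w₀` gives `θ² - t θ + n ∈ 𝔪`, `θ = τ ϖ / ϖ`.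
-/
import Fermat.Agent.S56.W4.C.S.OrdDefs
import Fermat.Agent.S56.W4.C.TR.Defs
import Fermat.Agent.Lib.FFL.Red

set_option autoImplicit false
set_option linter.unusedSectionVars false

namespace Fermat.Agent.S56.SS

open Fermat.Agent.F4 ExtCitation Fermat.Agent.FFL Fermat.Agent.FlatMod

local notation "Kb" => AlgebraicClosure ℚ
local notation "GK" => (AlgebraicClosure ℚ ≃ₐ[ℚ] AlgebraicClosure ℚ)

variable {P : ValuationSubring Kb}

theorem ordc_mem_of_pow_mem {y : Kb} {N : ℕ} (hN : 0 < N) (h : y ^ N ∈ P) : y ∈ P := by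
  rw [← P.valuation_le_one_iff] at h ⊢
  rw [map_pow] at h
  exact (pow_le_one_iff hN.ne').1 h

theorem ordc_inertia_mem {σ : GK} (hσ : σ ∈ P.inertiaSubgroupIn ℚ) {x : Kb} (hx : x ∈ P) :
    σ x ∈ P := by
  have h1 := red_mem_of_mem_nonunits P (Fermat.Agent.Cyclo.inertia_sub_mem_nonunits P hσ hx)
  have h2 : σ x = (σ x - x) + x := by ring
  rw [h2]
  exact P.add_mem _ _ h1 hx

theorem ordc_sum_mem_nonunits {ι : Type*} (s : Finset ι) (F : ι → Kb)
    (hF : ∀ i ∈ s, F i ∈ P.nonunits) : ∑ i ∈ s, F i ∈ P.nonunits := by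
  classical
  induction s using Finset.induction_on with
  | empty => rw [Finset.sum_empty]; exact red_zero_mem_nonunits P
  | insert a s ha ih =>
    rw [Finset.sum_insert ha]
    exact red_add_mem_nonunits P (hF a (Finset.mem_insert_self a s))
      (ih (fun i hi => hF i (Finset.mem_insert_of_mem hi)))

theorem ordc_identity {F : Type*} [Field F] (x y z tt nn : F) (hx : x ≠ 0) (hy : y ≠ 0) :
    (y ^ 2 - tt * y * x + nn * x ^ 2) / x ^ 2 =
      (z - tt * y + nn * x) / x - (z / y - y / x) * (y / x) := by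
  field_simp
  ring

section

variable {W : Type} [AddCommGroup W] {act : GK → W → W}

theorem ordc_act_zero (hIA : IsIAction P act) {σ : GK} (hσ : σ ∈ P.inertiaSubgroupIn ℚ) :
    act σ 0 = 0 := by
  have h := hIA.1 σ hσ 0 0
  rw [add_zero] at h
  exact left_eq_add.1 h

theorem ordc_act_ne_zero (hIA : IsIAction P act) {σ : GK} (hσ : σ ∈ P.inertiaSubgroupIn ℚ)
    {a : W} (ha : a ≠ 0) : act σ a ≠ 0 := by
  intro h
  apply ha
  have h1 := hIA.2.2 σ⁻¹ (inv_mem hσ) σ hσ a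
  rw [inv_mul_cancel, hIA.2.1, h, ordc_act_zero hIA (inv_mem hσ)] at h1
  exact h1

end

/-- **ORD-C**. -/
theorem ordCharProp_of (p : ℕ) (P : ValuationSubring Kb) (hVal : ValOrbitProp p P) :
    OrdCharProp p P := by
  intro hp hP W _ _ act O hIA N hN hcard hconn Z hZ hZ0 hZval w₀ hw₀ τ hτ t n hrel
  classical
  let _ : Fintype W := Fintype.ofFinite W
  have hp0 : (p : Kb) ≠ 0 := Nat.cast_ne_zero.2 hp.ne_zero
  set ϖ : Kb := Z w₀ with hϖ
  obtain ⟨hge, hϖ0, hle⟩ := hZval w₀ hw₀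
  -- `hge : ϖ ^ N / p ^ 1 ∈ P`, `hle : p ^ 1 / ϖ ^ N ∈ P`
  unfold ValGE at hge
  rw [pow_one] at hge hle
  -- LB
  have hLB : ∀ Y ∈ O.alg, ∀ a : W, (Y a - Y 0) / ϖ ∈ P := by
    intro Y hY a
    by_cases ha : a = 0
    · rw [ha, sub_self, zero_div]; exact P.zero_mem
    have hx : Y a - Y 0 ∈ P.nonunits := hconn Y hY a
    let T : Finset Kb := (Finset.univ.erase (0 : W)).image (fun a' => Y a' - Y 0)
    have hT : T.card ≤ N := by
      refine Finset.card_image_le.trans ?_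
      rw [Finset.card_erase_of_mem (Finset.mem_univ _), Finset.card_univ,
        ← Nat.card_eq_fintype_card, hcard]
      omega
    have hconj : ∀ σ ∈ P.inertiaSubgroupIn ℚ, σ (Y a - Y 0) ∈ T := by
      intro σ hσ
      rw [map_sub, ← O.equiv Y hY σ hσ, ← O.equiv Y hY σ hσ, ordc_act_zero hIA hσ]
      exact Finset.mem_image.2 ⟨act σ a,
        Finset.mem_erase.2 ⟨ordc_act_ne_zero hIA hσ ha, Finset.mem_univ _⟩, rfl⟩
    have h1 := hVal hp hP (Y a - Y 0) T N hx hconj hT hN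
    unfold ValGE at h1
    rw [pow_one] at h1
    apply ordc_mem_of_pow_mem hN
    have h2 : ((Y a - Y 0) / ϖ) ^ N = ((Y a - Y 0) ^ N / (p : Kb)) * ((p : Kb) / ϖ ^ N) := by
      rw [div_pow, div_mul_div_cancel₀ hp0]
    rw [h2]
    exact P.mul_mem _ _ h1 hle
  -- ADD
  have hADD : ∀ a a' : W, (Z (a + a') - Z a - Z a') / ϖ ∈ P.nonunits := by
    intro a a'
    obtain ⟨m, g, h, hg, hh, hgh⟩ := O.comul Z hZ
    have h1 : Z (a + a') - Z a - Z a' = ∑ i, (g i a - g i 0) * (h i a' - h i 0) := by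
      have e1 := hgh a a'
      have e2 := hgh a 0
      have e3 := hgh 0 a'
      have e4 := hgh 0 0
      rw [add_zero] at e2 e4
      rw [zero_add] at e3
      rw [hZ0] at e4
      have e5 : ∑ i, (g i a - g i 0) * (h i a' - h i 0) =
          ∑ i, g i a * h i a' - ∑ i, g i a * h i 0 - ∑ i, g i 0 * h i a' +
            ∑ i, g i 0 * h i 0 := by
        rw [← Finset.sum_sub_distrib, ← Finset.sum_sub_distrib, ← Finset.sum_add_distrib]
        exact Finset.sum_congr rfl (fun i _ => by ring)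
      rw [e5, ← e1, ← e2, ← e3, ← e4, add_zero]
    rw [h1, Finset.sum_div]
    refine ordc_sum_mem_nonunits _ _ (fun i _ => ?_)
    rw [mul_div_assoc]
    exact red_mul_mem_nonunits_right P (hconn (g i) (hg i) a) (hLB (h i) (hh i) a')
  -- multiples
  have hMUL : ∀ (j : ℕ) (a : W), (Z (j • a) - (j : Kb) * Z a) / ϖ ∈ P.nonunits := by
    intro j a
    induction j with
    | zero =>
      rw [zero_smul, hZ0, Nat.cast_zero, zero_mul, sub_zero, zero_div]
      exact red_zero_mem_nonunits P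
    | succ j ih =>
      have e : (Z ((j + 1) • a) - ((j + 1 : ℕ) : Kb) * Z a) / ϖ =
          (Z (j • a + a) - Z (j • a) - Z a) / ϖ + (Z (j • a) - (j : Kb) * Z a) / ϖ := by
        rw [succ_nsmul, Nat.cast_succ]
        ring
      rw [e]
      exact red_add_mem_nonunits P (hADD _ _) ih
  -- the relation
  set B : W := act τ w₀ with hB
  set A : W := act τ B with hA
  have hZB : Z B = τ ϖ := O.equiv Z hZ τ hτ w₀
  have hZA : Z A = τ (τ ϖ) := by rw [hA, O.equiv Z hZ τ hτ B, hZB]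
  have hE1 : (τ (τ ϖ) - (t : Kb) * τ ϖ + (n : Kb) * ϖ) / ϖ ∈ P.nonunits := by
    have h1 := hADD A (n • w₀)
    have h2 := hMUL n w₀
    have h3 := hMUL t B
    rw [hrel] at h1
    rw [hZA] at h1
    rw [hZB] at h3
    -- h1 : (Z (t • B) - τ (τ ϖ) - Z (n • w₀)) / ϖ ∈ 𝔪
    have e : (τ (τ ϖ) - (t : Kb) * τ ϖ + (n : Kb) * ϖ) / ϖ =
        (Z (t • B) - (t : Kb) * τ ϖ) / ϖ - (Z (t • B) - τ (τ ϖ) - Z (n • w₀)) / ϖ
          - (Z (n • w₀) - (n : Kb) * Z w₀) / ϖ := by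
      rw [← hϖ]
      ring
    rw [e]
    exact red_sub_mem_nonunits P (red_sub_mem_nonunits P h3 h1) h2
  -- `θ = τ ϖ / ϖ`
  have hτϖ : (τ ϖ) ^ N / (p : Kb) ∈ P := by
    have h1 := ordc_inertia_mem hτ hge
    rwa [map_div₀, map_pow, map_natCast] at h1
  have hθ : τ ϖ / ϖ ∈ P := by
    apply ordc_mem_of_pow_mem hN
    have h2 : (τ ϖ / ϖ) ^ N = ((τ ϖ) ^ N / (p : Kb)) * ((p : Kb) / ϖ ^ N) := by
      rw [div_pow, div_mul_div_cancel₀ hp0]
    rw [h2]
    exact P.mul_mem _ _ hτϖ hle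
  have hτθ : τ (τ ϖ / ϖ) - τ ϖ / ϖ ∈ P.nonunits :=
    Fermat.Agent.Cyclo.inertia_sub_mem_nonunits P hτ hθ
  have hτϖ0 : τ ϖ ≠ 0 := fun h => hϖ0 ((map_eq_zero τ).1 h)
  have efin : ((τ ϖ) ^ 2 - (t : Kb) * τ ϖ * ϖ + (n : Kb) * ϖ ^ 2) / ϖ ^ 2 =
      (τ (τ ϖ) - (t : Kb) * τ ϖ + (n : Kb) * ϖ) / ϖ
        - (τ (τ ϖ / ϖ) - τ ϖ / ϖ) * (τ ϖ / ϖ) := by
    rw [map_div₀]
    exact ordc_identity ϖ (τ ϖ) (τ (τ ϖ)) t n hϖ0 hτϖ0
  rw [efin]
  exact red_sub_mem_nonunits P hE1 (red_mul_mem_nonunits_right P hτθ hθ)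

end Fermat.Agent.S56.SS
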