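/-
S56, WALL W4, CASE C, BLOCK S, leaf ORD, sub-leaf ORD-M (helper88): the simple inertia-module
`W = 𝔽_p b₀ + 𝔽_p α b₀` of order `p²` (`α = ψ τ`, `b₀ = b 0`) of a representation of shape `SSTame`,
with the relation `τ² b₀ + n b₀ = t τ b₀` (`t = α + α^p`, `n = α^(p+1)`).

Proof: `S = 𝔽_p + 𝔽_p α ⊆ k` is an additive subgroup with `p²` elements (`α ∉ 𝔽_p`), stable under
the multiplication by `α` (`α² = t α - n`, `t`, `n` fixed by the Frobenius, hence in `𝔽_p`).  An
additive subgroup `A ≤ S` stable under `α` with an element `c ≠ 0` contains `S c`, and `S c = S`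
(the multiplication by `c` is injective on the finite set `S`).  `W = S b₀`.
-/
import Fermat.Agent.S56.W4.C.S.OrdDefs

set_option autoImplicit false
set_option linter.style.haveILetI false

namespace Fermat.Agent.S56.SS

open Fermat.Agent.F4 ExtCitation

local notation "Kb" => AlgebraicClosure ℚ
local notation "GK" => (AlgebraicClosure ℚ ≃ₐ[ℚ] AlgebraicClosure ℚ)

section Core

variable {k : Type} [Field k]

/-- In characteristic `p`, a fixed point of the Frobenius is in the image of `𝔽_p`. -/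
theorem ordm_exists_cast (p : ℕ) [Fact p.Prime] [CharP k p] {c : k} (hc : c ^ p = c) :
    ∃ a : ZMod p, ZMod.castHom (dvd_refl p) k a = c := by
  have h1 : c ∈ (⊥ : Subfield k) := (Subfield.mem_bot_iff_pow_eq_self k p).2 hc
  rw [← ZMod.fieldRange_castHom_eq_bot p] at h1
  exact h1

/-- The image of `𝔽_p` is fixed by the Frobenius. -/
theorem ordm_cast_pow (p : ℕ) [Fact p.Prime] [CharP k p] (a : ZMod p) :
    (ZMod.castHom (dvd_refl p) k a) ^ p = ZMod.castHom (dvd_refl p) k a := by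
  rw [← map_pow, ZMod.pow_card]

/-- The image of `𝔽_p` consists of natural numbers. -/
theorem ordm_cast_eq_natCast (p : ℕ) [Fact p.Prime] [CharP k p] (a : ZMod p) :
    ZMod.castHom (dvd_refl p) k a = (a.val : k) := by
  conv_lhs => rw [← ZMod.natCast_zmod_val a]
  rw [map_natCast]

/-- Powers of an endomorphism on an eigenvector. -/
theorem ordm_pow_eigen {V : Type} [AddCommGroup V] [Module k V] (g : Module.End k V) {v : V}
    {α : k} (h : g v = α • v) (n : ℕ) : (g ^ n) v = α ^ n • v := by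
  induction n with
  | zero => simp
  | succ n ih =>
    rw [pow_succ, Module.End.mul_apply, h, map_smul, ih, smul_smul, pow_succ, mul_comm]

/-- The additive group `S = 𝔽_p + 𝔽_p α` for `α ∈ 𝔽_{p²} ∖ 𝔽_p`: it has `p²` elements, it is stable
under `α`, and it is simple as such. -/
theorem ordm_ring [Finite k] (p : ℕ) [Fact p.Prime] [CharP k p] (α : k)
    (hα2 : α ^ (p ^ 2) = α) (hαp : α ^ p ≠ α) :
    ∃ (S : AddSubgroup k) (t n : ℕ), (1 : k) ∈ S ∧ (∀ c ∈ S, α * c ∈ S) ∧ Nat.card S = p ^ 2 ∧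
      (t : k) = α + α ^ p ∧ (n : k) = α ^ (p + 1) ∧
      ∀ A : AddSubgroup k, A ≤ S → (∀ a ∈ A, α * a ∈ A) → A = ⊥ ∨ A = S := by
  have hp : p.Prime := Fact.out
  set ι := ZMod.castHom (dvd_refl p) k with hι
  have hαpp : (α ^ p) ^ p = α := by rw [← pow_mul, ← pow_two, hα2]
  have ht : (α + α ^ p) ^ p = α + α ^ p := by
    rw [add_pow_char, hαpp, add_comm]
  have hn : (α ^ (p + 1)) ^ p = α ^ (p + 1) := by
    rw [pow_succ, mul_pow, hαpp, mul_comm]
  obtain ⟨t', ht'⟩ := ordm_exists_cast p ht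
  obtain ⟨n', hn'⟩ := ordm_exists_cast p hn
  have hrel : α * α = ι t' * α - ι n' := by
    rw [ht', hn']; ring
  let S : AddSubgroup k :=
    { carrier := {c | ∃ x y : ZMod p, c = ι x + ι y * α}
      zero_mem' := ⟨0, 0, by simp⟩
      add_mem' := by
        rintro _ _ ⟨x, y, rfl⟩ ⟨x', y', rfl⟩
        exact ⟨x + x', y + y', by rw [map_add, map_add]; ring⟩
      neg_mem' := by
        rintro _ ⟨x, y, rfl⟩
        exact ⟨-x, -y, by rw [map_neg, map_neg]; ring⟩ }
  have hSα : ∀ c ∈ S, α * c ∈ S := by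
    rintro _ ⟨x, y, rfl⟩
    refine ⟨-(y * n'), x + y * t', ?_⟩
    rw [map_neg, map_mul, map_add, map_mul]
    linear_combination (ι y) * hrel
  have hcastmul : ∀ (B : AddSubgroup k) (x : ZMod p) (c : k), c ∈ B → ι x * c ∈ B := by
    intro B x c hc
    rw [hι, ordm_cast_eq_natCast, ← nsmul_eq_mul]
    exact B.nsmul_mem hc _
  have hSmul : ∀ (B : AddSubgroup k), (∀ a ∈ B, α * a ∈ B) → ∀ c ∈ B, ∀ r ∈ S, r * c ∈ B := by
    rintro B hB c hc _ ⟨x, y, rfl⟩
    have : (ι x + ι y * α) * c = ι x * c + ι y * (α * c) := by ring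
    rw [this]
    exact B.add_mem (hcastmul B x c hc) (hcastmul B y _ (hB c hc))
  have hinj : ∀ x y x' y' : ZMod p, ι x + ι y * α = ι x' + ι y' * α → x = x' ∧ y = y' := by
    intro x y x' y' h
    have hy : y = y' := by
      by_contra hne
      have hne' : ι y - ι y' ≠ 0 := by
        rw [← map_sub, Ne, map_eq_zero_iff ι ι.injective, sub_eq_zero]
        exact hne
      have hα : α = ι ((x' - x) / (y - y')) := by
        rw [map_div₀, map_sub, map_sub, eq_div_iff hne']
        linear_combination h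
      apply hαp
      rw [hα]
      exact ordm_cast_pow p _
    subst hy
    exact ⟨ι.injective (add_right_cancel h), rfl⟩
  have hcard : Nat.card S = p ^ 2 := by
    have hbij : Function.Bijective
        (fun z : ZMod p × ZMod p => (⟨ι z.1 + ι z.2 * α, z.1, z.2, rfl⟩ : S)) := by
      constructor
      · rintro ⟨x, y⟩ ⟨x', y'⟩ h
        have := hinj x y x' y' (congrArg Subtype.val h)
        rw [this.1, this.2]
      · rintro ⟨_, x, y, rfl⟩
        exact ⟨(x, y), rfl⟩
    rw [← Nat.card_congr (Equiv.ofBijective _ hbij), Nat.card_prod, Nat.card_zmod, pow_two]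
  refine ⟨S, t'.val, n'.val, ⟨1, 0, by simp⟩, hSα, hcard, ?_, ?_, ?_⟩
  · rw [← ordm_cast_eq_natCast, ← hι, ht']
  · rw [← ordm_cast_eq_natCast, ← hι, hn']
  · intro A hAS hA
    rcases A.bot_or_exists_ne_zero with hbot | ⟨c, hcA, hc0⟩
    · exact Or.inl hbot
    right
    have hcS : c ∈ S := hAS hcA
    refine le_antisymm hAS ?_
    let m : S → S := fun r => ⟨r.1 * c, hSmul S hSα c hcS r.1 r.2⟩
    have hm : Function.Injective m := by
      intro r r' h
      have h' : r.1 * c = r'.1 * c := congrArg Subtype.val h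
      exact Subtype.ext (mul_right_cancel₀ hc0 h')
    have hms : Function.Surjective m := Finite.surjective_of_injective hm
    intro s hs
    obtain ⟨r, hr⟩ := hms ⟨s, hs⟩
    have hrs : r.1 * c = s := congrArg Subtype.val hr
    rw [← hrs]
    exact hSmul A hA c hcA r.1 r.2

end Core

/-- **ORD-M**: the simple module of order `p²` generated by `b 0`. -/
theorem ordModuleProp (p : ℕ) [Fact p.Prime] : OrdModuleProp p := by
  intro k _ _ ρbar hpk s
  have hp : p.Prime := Fact.out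
  haveI : CharP k p := (CharP.charP_iff_prime_eq_zero hp).2 hpk
  have hb0 : s.b 0 ≠ 0 := s.b.ne_zero 0
  obtain ⟨S, t, n, h1S, hSα, hScard, ht, hn, hSsimple⟩ :=
    ordm_ring p (s.ψ s.τ) (s.fp2 s.τ s.τ_mem) s.not_fp
  let f : k →+ ρbar.V := (LinearMap.toSpanSingleton k ρbar.V (s.b 0)).toAddMonoidHom
  have hf : ∀ c, f c = c • s.b 0 := fun c => rfl
  have hfinj : Function.Injective f := by
    intro c c' h
    rw [hf, hf] at h
    exact smul_left_injective k hb0 h
  have hact : ∀ σ ∈ Ip p, ∀ c : k, ρbar.ρ σ (c • s.b 0) = (s.ψ σ * c) • s.b 0 := by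
    intro σ hσ c
    rw [map_smul, s.diag0 σ hσ, smul_smul, mul_comm]
  have hpowS : ∀ (j : ℕ), ∀ c ∈ S, (s.ψ s.τ) ^ j * c ∈ S := by
    intro j
    induction j with
    | zero => intro c hc; simpa using hc
    | succ j ih => intro c hc; rw [pow_succ, mul_assoc]; exact ih _ (hSα c hc)
  refine ⟨S.map f, t, n, ⟨1, h1S, by rw [hf, one_smul]⟩, ?_, ?_, ?_, ?_, ht, hn, ?_⟩
  · rintro σ hσ _ ⟨c, hc, rfl⟩
    obtain ⟨j, hj⟩ := s.gen σ hσ
    rw [hf, hact σ hσ, hj]
    exact ⟨_, hpowS j c hc, rfl⟩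
  · rw [← hScard]
    exact (Nat.card_congr (S.equivMapOfInjective f hfinj).toEquiv).symm
  · intro N hNW hN
    let A : AddSubgroup k := N.comap f ⊓ S
    have hA : ∀ a ∈ A, s.ψ s.τ * a ∈ A := by
      rintro a ⟨haN, haS⟩
      refine ⟨?_, hSα a haS⟩
      have := hN s.τ s.τ_mem (f a) haN
      rw [hf, hact s.τ s.τ_mem] at this
      exact this
    rcases hSsimple A inf_le_right hA with h | h
    · left
      rw [eq_bot_iff]
      intro x hx
      obtain ⟨c, hc, rfl⟩ := hNW hx
      have hcA : c ∈ A := ⟨hx, hc⟩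
      rw [h, AddSubgroup.mem_bot] at hcA
      rw [AddSubgroup.mem_bot, hcA, map_zero]
    · right
      refine le_antisymm hNW ?_
      rintro _ ⟨c, hc, rfl⟩
      have hcA : c ∈ A := by rw [h]; exact hc
      exact hcA.1
  · intro σ hσ
    obtain ⟨j, hj⟩ := s.gen σ hσ
    refine ⟨j, ?_⟩
    rintro _ ⟨c, hc, rfl⟩
    rw [hf, hact σ hσ, hj, map_smul, ordm_pow_eigen (ρbar.ρ s.τ) (s.diag0 s.τ s.τ_mem) j,
      smul_smul, mul_comm]
  · rw [s.diag0 s.τ s.τ_mem, map_smul, s.diag0 s.τ s.τ_mem, ← Nat.cast_smul_eq_nsmul k n,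
      ← Nat.cast_smul_eq_nsmul k t, hn, ht, smul_smul, smul_smul, ← add_smul]
    congr 1
    ring

end Fermat.Agent.S56.SS
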